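import Fermat.Agent.MUL.Orig.F4.SM.Levels
import Fermat.Agent.MUL.Orig.Lib.MultRed.Comp.Half

/-!
# F4 / Formation : open subgroups for a level structure, restriction of smooth cochains

* `Levels.IsOpen`, `Levels.sub`;
* restriction maps `Z1res`, `Z2res`, `H1res`, `H2res` along a group homomorphism `r : H →* G`
  (levels pulled back by `Levels.comap r`), and `Z2resSub` between open subgroups.
(Route v2 of cluster D does not use Milne's class formations any more: see `F4/Datum.lean`.)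
-/

set_option autoImplicit false

open CategoryTheory groupCohomology

namespace Fermat.Agent.F4

variable {k G : Type} [CommRing k] [Group G]

namespace Levels

variable (𝓤 : Levels G)

/-- `U` is open for the level structure: it contains a member of `𝓤`. -/
def IsOpen (U : Subgroup G) : Prop := ∃ V ∈ 𝓤.sets, V ≤ U

lemma isOpen_of_mem {V : Subgroup G} (hV : V ∈ 𝓤.sets) : 𝓤.IsOpen V := ⟨V, hV, le_rfl⟩

lemma isOpen_top : 𝓤.IsOpen ⊤ := by
  obtain ⟨V, hV⟩ := 𝓤.nonempty
  exact ⟨V, hV, le_top⟩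

lemma IsOpen.mono {U U' : Subgroup G} (h : 𝓤.IsOpen U) (hle : U ≤ U') : 𝓤.IsOpen U' := by
  obtain ⟨V, hV, hVU⟩ := h
  exact ⟨V, hV, hVU.trans hle⟩

/-- The induced level structure on a subgroup `U` (traces `V ∩ U` of the members of `𝓤`). -/
abbrev sub (U : Subgroup G) : Levels U := 𝓤.comap U.subtype

end Levels

section Restriction

variable (𝓤 : Levels G) (A : Rep.{0} k G)

/-- Restriction of level-constant cochains along `r : H →* G` (degree 1). -/
lemma IsLC₁.comp_hom {H : Type} [Group H] (r : H →* G) {X : Type*} {f : G → X}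
    (hf : IsLC₁ 𝓤 f) : IsLC₁ (𝓤.comap r) (fun h => f (r h)) := by
  obtain ⟨U, hU, h⟩ := hf
  refine ⟨U.comap r, ⟨U, hU, rfl⟩, fun g s hs => ?_⟩
  show f (r (g * s)) = f (r g)
  rw [map_mul]
  exact h (r g) (r s) hs

/-- Restriction of level-constant cochains along `r : H →* G` (degree 2). -/
lemma IsLC₂.comp_hom {H : Type} [Group H] (r : H →* G) {X : Type*} {f : G × G → X}
    (hf : IsLC₂ 𝓤 f) : IsLC₂ (𝓤.comap r) (fun h => f (r h.1, r h.2)) := by
  obtain ⟨U, hU, h⟩ := hf
  refine ⟨U.comap r, ⟨U, hU, rfl⟩, fun g g' s s' hs hs' => ?_⟩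
  show f (r (g * s), r (g' * s')) = f (r g, r g')
  rw [map_mul, map_mul]
  exact h (r g) (r g') (r s) (r s') hs hs'

/-- Restriction `Z²(G, A) → Z²(H, res A)` on smooth cocycles, along `r : H →* G`. -/
def Z2res {H : Type} [Group H] (r : H →* G) :
    ↥(Z2 𝓤 A) →ₗ[k] ↥(Z2 (𝓤.comap r) (Rep.res r A)) where
  toFun z := ⟨fun h => (z : G × G → A) (r h.1, r h.2), by
    refine ⟨?_, IsLC₂.comp_hom 𝓤 r z.2.2⟩
    have hz := (mem_cocycles₂_iff (z : G × G → A)).1 z.2.1
    refine (mem_cocycles₂_iff _).2 fun g h j => ?_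
    have := hz (r g) (r h) (r j)
    simpa [map_mul] using this⟩
  map_add' _ _ := rfl
  map_smul' _ _ := rfl

/-- Restriction `Z¹(G, A) → Z¹(H, res A)` on smooth cocycles, along `r : H →* G`. -/
def Z1res {H : Type} [Group H] (r : H →* G) :
    ↥(Z1 𝓤 A) →ₗ[k] ↥(Z1 (𝓤.comap r) (Rep.res r A)) where
  toFun z := ⟨fun h => (z : G → A) (r h), by
    refine ⟨?_, IsLC₁.comp_hom 𝓤 r z.2.2⟩
    have hz := (mem_cocycles₁_iff (z : G → A)).1 z.2.1
    refine (mem_cocycles₁_iff _).2 fun g h => ?_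
    have := hz (r g) (r h)
    simpa [map_mul] using this⟩
  map_add' _ _ := rfl
  map_smul' _ _ := rfl

/-- Restriction on smooth `H²`. -/
def H2res {H : Type} [Group H] (r : H →* G) :
    H2sm 𝓤 A →ₗ[k] H2sm (𝓤.comap r) (Rep.res r A) :=
  Submodule.mapQ _ _ (Z2res 𝓤 A r) (by
    rintro z ⟨x, hx, hxz⟩
    refine ⟨fun h => x (r h), IsLC₁.comp_hom 𝓤 r hx, ?_⟩
    funext h
    have := congrFun hxz (r h.1, r h.2)
    simp only [Submodule.subtype_apply] at this
    simp only [Submodule.subtype_apply, Z2res, LinearMap.coe_mk, AddHom.coe_mk]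
    rw [← this]
    simp [d₁₂_hom_apply, map_mul])

/-- Restriction on smooth `H¹`. -/
def H1res {H : Type} [Group H] (r : H →* G) :
    H1sm 𝓤 A →ₗ[k] H1sm (𝓤.comap r) (Rep.res r A) :=
  Submodule.mapQ _ _ (Z1res 𝓤 A r) (by
    rintro z ⟨a, haz⟩
    refine ⟨a, ?_⟩
    funext h
    have := congrFun haz (r h)
    simp only [Submodule.subtype_apply] at this
    simp only [Submodule.subtype_apply, Z1res, LinearMap.coe_mk, AddHom.coe_mk]
    rw [← this]
    simp [d₀₁_hom_apply])

/-- Restriction of smooth 2-cocycles from an open subgroup `U` to a smaller subgroup `V ≤ U`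
(both with the level structures induced from `G`). -/
def Z2resSub {U V : Subgroup G} (hVU : V ≤ U) :
    ↥(Z2 (𝓤.sub U) (Rep.res U.subtype A)) →ₗ[k] ↥(Z2 (𝓤.sub V) (Rep.res V.subtype A)) where
  toFun z := ⟨fun h => (z : U × U → A) (Subgroup.inclusion hVU h.1, Subgroup.inclusion hVU h.2), by
    refine ⟨?_, ?_⟩
    · have hz := (mem_cocycles₂_iff (A := Rep.res U.subtype A) (z : U × U → A)).1 z.2.1
      refine (mem_cocycles₂_iff (A := Rep.res V.subtype A) _).2 fun g h j => ?_
      have := hz (Subgroup.inclusion hVU g) (Subgroup.inclusion hVU h) (Subgroup.inclusion hVU j)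
      simpa [map_mul] using this
    · obtain ⟨_, ⟨W, hW, rfl⟩, hinv⟩ := z.2.2
      refine ⟨W.comap V.subtype, ⟨W, hW, rfl⟩, fun g g' s s' hs hs' => ?_⟩
      show (z : U × U → A) (Subgroup.inclusion hVU (g * s), Subgroup.inclusion hVU (g' * s'))
        = (z : U × U → A) (Subgroup.inclusion hVU g, Subgroup.inclusion hVU g')
      rw [map_mul, map_mul]
      exact hinv _ _ _ _ hs hs'⟩
  map_add' _ _ := rfl
  map_smul' _ _ := rfl

end Restriction

end Fermat.Agent.F4
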