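import Fermat.Agent.MUL.Orig.F4.Pairing
import Fermat.Agent.MUL.Orig.F4.Formation
import Fermat.Agent.MUL.Orig.S05.H27.OfValuation

/-!
# F4 / Duality : functoriality on cochains, restriction, the duality properties, statement of DDT

* `CxHom.onT1/onT2`, `CxHom.mapZZ1/mapZZ2/mapHH1/mapHH2` : functoriality of hypercohomology;
* `Cx.res`, `resT1/resT2` : restriction along a group homomorphism;
* `permRep U = k[G/U]`;
* `InvMap 𝓤 K` : a linear form on `HH²(K)`;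
* `A2Inj`, `A1Surj`, `A1Inj` : the duality properties of `(K, inv)` for a coefficient module `N`;
* `ddt`, `ddt_inj` : the dévissage duality theorem (STUB, owner: ALG sub-architect).
-/

set_option autoImplicit false

open CategoryTheory groupCohomology

namespace Fermat.Agent.F4

variable {k G : Type} [CommRing k] [Group G]

/-! ### Functoriality on cochains -/

section Functoriality

variable {K L : Cx k G} (f : CxHom K L)

/-- The map induced on total 1-cochains. -/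
def CxHom.onT1 : T1 K →ₗ[k] T1 L := LinearMap.prodMap (f.f0.compLeft G) f.f1

/-- The map induced on total 2-cochains. -/
def CxHom.onT2 : T2 K →ₗ[k] T2 L :=
  LinearMap.prodMap (f.f0.compLeft (G × G)) (f.f1.compLeft G)

@[simp] lemma CxHom.onT1_apply (ab : T1 K) : f.onT1 ab = (fun g => f.f0 (ab.1 g), f.f1 ab.2) := rfl

@[simp] lemma CxHom.onT2_apply (ab : T2 K) :
    f.onT2 ab = (fun p => f.f0 (ab.1 p), fun g => f.f1 (ab.2 g)) := rfl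

lemma CxHom.D0_f0 (x : K.K0) : D0 L (f.f0 x) = f.onT1 (D0 K x) := by
  refine Prod.ext ?_ ?_
  · funext g; simp [f.comm0]
  · simp [f.commd]

lemma CxHom.D1_onT1 (ab : T1 K) : D1 L (f.onT1 ab) = f.onT2 (D1 K ab) := by
  refine Prod.ext ?_ ?_
  · funext p; simp [f.comm0]
  · funext g; simp [f.comm1, f.commd]

variable (𝓤 : Levels G)

lemma CxHom.onT1_mem_ZZ1 {ab : T1 K} (h : ab ∈ ZZ1 𝓤 K) : f.onT1 ab ∈ ZZ1 𝓤 L := by
  obtain ⟨h1, h2, h3⟩ := (mem_ZZ1_iff 𝓤 K ab).1 h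
  refine (mem_ZZ1_iff 𝓤 L _).2 ⟨?_, ?_, h3.comp f.f0⟩
  · funext p
    have := congrArg f.f0 (congrFun h1 p)
    simpa [f.comm0] using this
  · funext g
    have := congrArg f.f1 (congrFun h2 g)
    simpa [f.comm1, f.commd] using this

lemma CxHom.onT2_mem_ZZ2 {ab : T2 K} (h : ab ∈ ZZ2 𝓤 K) : f.onT2 ab ∈ ZZ2 𝓤 L := by
  obtain ⟨h1, h2, h3, h4⟩ := (mem_ZZ2_iff 𝓤 K ab).1 h
  refine (mem_ZZ2_iff 𝓤 L _).2 ⟨?_, ?_, h3.comp f.f0, h4.comp f.f1⟩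
  · funext p
    have := congrArg f.f0 (congrFun h1 p)
    simpa [f.comm0] using this
  · funext p
    have := congrArg f.f1 (congrFun h2 p)
    simpa [f.comm1, f.commd] using this

lemma CxHom.onT1_mem_BB1 {ab : T1 K} (h : ab ∈ BB1 K) : f.onT1 ab ∈ BB1 L := by
  obtain ⟨x, rfl⟩ := h
  exact ⟨f.f0 x, f.D0_f0 x⟩

lemma CxHom.onT2_mem_BB2 {ab : T2 K} (h : ab ∈ BB2 𝓤 K) : f.onT2 ab ∈ BB2 𝓤 L := by
  obtain ⟨cd, hcd, rfl⟩ := (mem_BB2_iff 𝓤 K ab).1 h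
  exact (mem_BB2_iff 𝓤 L _).2 ⟨f.onT1 cd, hcd.comp f.f0, f.D1_onT1 cd⟩

/-- The map induced on smooth 1-cocycles. -/
def CxHom.mapZZ1 : ↥(ZZ1 𝓤 K) →ₗ[k] ↥(ZZ1 𝓤 L) :=
  (f.onT1.comp (ZZ1 𝓤 K).subtype).codRestrict (ZZ1 𝓤 L) fun z => f.onT1_mem_ZZ1 𝓤 z.2

/-- The map induced on smooth 2-cocycles. -/
def CxHom.mapZZ2 : ↥(ZZ2 𝓤 K) →ₗ[k] ↥(ZZ2 𝓤 L) :=
  (f.onT2.comp (ZZ2 𝓤 K).subtype).codRestrict (ZZ2 𝓤 L) fun z => f.onT2_mem_ZZ2 𝓤 z.2

/-- The map induced on `HH¹`. -/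
def CxHom.mapHH1 : HH1 𝓤 K →ₗ[k] HH1 𝓤 L :=
  Submodule.mapQ _ _ (f.mapZZ1 𝓤) fun _ hz => f.onT1_mem_BB1 hz

/-- The map induced on `HH²`. -/
def CxHom.mapHH2 : HH2 𝓤 K →ₗ[k] HH2 𝓤 L :=
  Submodule.mapQ _ _ (f.mapZZ2 𝓤) fun _ hz => f.onT2_mem_BB2 𝓤 hz

end Functoriality

/-! ### Restriction along a group homomorphism -/

section Restriction

variable {H : Type} [Group H] (r : H →* G)

/-- Restriction of a complex along `r : H →* G`. -/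
def Cx.res (K : Cx k G) : Cx k H where
  K0 := Rep.res r K.K0
  K1 := Rep.res r K.K1
  d := K.d
  comm h x := K.comm (r h) x

/-- Restriction of total 1-cochains. -/
def resT1 (K : Cx k G) (ab : T1 K) : T1 (K.res r) := (fun h => ab.1 (r h), ab.2)

/-- Restriction of total 2-cochains. -/
def resT2 (K : Cx k G) (ab : T2 K) : T2 (K.res r) :=
  (fun p => ab.1 (r p.1, r p.2), fun h => ab.2 (r h))

/-- Restriction of total 1-cochains of `Hom(N, K)`. -/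
def resHomT1 (N : Rep.{0} k G) (K : Cx k G) (ab : T1 (homCx N K)) :
    T1 (homCx (Rep.res r N) (K.res r)) :=
  (fun h => (ab.1 (r h) : N →ₗ[k] K.K0), (ab.2 : N →ₗ[k] K.K1))

/-- Restriction of total 2-cochains of `Hom(N, K)`. -/
def resHomT2 (N : Rep.{0} k G) (K : Cx k G) (ab : T2 (homCx N K)) :
    T2 (homCx (Rep.res r N) (K.res r)) :=
  (fun p => (ab.1 (r p.1, r p.2) : N →ₗ[k] K.K0), fun h => (ab.2 (r h) : N →ₗ[k] K.K1))

variable (𝓤 : Levels G)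

lemma resT2_mem_ZZ2 (K : Cx k G) {ab : T2 K} (h : ab ∈ ZZ2 𝓤 K) :
    resT2 r K ab ∈ ZZ2 (𝓤.comap r) (K.res r) := by
  obtain ⟨h1, h2, h3, h4⟩ := (mem_ZZ2_iff 𝓤 K ab).1 h
  refine (mem_ZZ2_iff _ _ _).2 ⟨?_, ?_, IsLC₂.comp_hom 𝓤 r h3, IsLC₁.comp_hom 𝓤 r h4⟩
  · funext p
    have := congrFun h1 (r p.1, r p.2.1, r p.2.2)
    simp only [δ2_apply, Pi.zero_apply] at this
    change K.K0.ρ (r p.1) (ab.1 (r p.2.1, r p.2.2)) - ab.1 (r (p.1 * p.2.1), r p.2.2)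
      + ab.1 (r p.1, r (p.2.1 * p.2.2)) - ab.1 (r p.1, r p.2.1) = 0
    rw [map_mul, map_mul]
    exact this
  · funext p
    have := congrFun h2 (r p.1, r p.2)
    simp only [δ1_apply, Cx.dco_apply] at this
    change K.d (ab.1 (r p.1, r p.2))
      = K.K1.ρ (r p.1) (ab.2 (r p.2)) - ab.2 (r (p.1 * p.2)) + ab.2 (r p.1)
    rw [map_mul]
    exact this

lemma resT1_mem_ZZ1 (K : Cx k G) {ab : T1 K} (h : ab ∈ ZZ1 𝓤 K) :
    resT1 r K ab ∈ ZZ1 (𝓤.comap r) (K.res r) := by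
  obtain ⟨h1, h2, h3⟩ := (mem_ZZ1_iff 𝓤 K ab).1 h
  refine (mem_ZZ1_iff _ _ _).2 ⟨?_, ?_, IsLC₁.comp_hom 𝓤 r h3⟩
  · funext p
    have := congrFun h1 (r p.1, r p.2)
    simp only [δ1_apply, Pi.zero_apply] at this
    change K.K0.ρ (r p.1) (ab.1 (r p.2)) - ab.1 (r (p.1 * p.2)) + ab.1 (r p.1) = 0
    rw [map_mul]
    exact this
  · funext p
    exact congrFun h2 (r p)

lemma resHomT1_mem_ZZ1 (N : Rep.{0} k G) (K : Cx k G) {ab : T1 (homCx N K)}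
    (h : ab ∈ ZZ1 𝓤 (homCx N K)) :
    resHomT1 r N K ab ∈ ZZ1 (𝓤.comap r) (homCx (Rep.res r N) (K.res r)) := by
  obtain ⟨h1, h2, h3⟩ := (mem_ZZ1_iff 𝓤 _ ab).1 h
  refine (mem_ZZ1_iff _ _ _).2 ⟨?_, ?_, IsLC₁.comp_hom 𝓤 r h3⟩
  · funext p
    have := congrFun h1 (r p.1, r p.2)
    simp only [δ1_apply, Pi.zero_apply] at this
    have h' := fun n => congrArg (fun f : N →ₗ[k] K.K0 => f n) this
    refine LinearMap.ext fun n => ?_
    change K.K0.ρ (r p.1) ((ab.1 (r p.2) : N →ₗ[k] K.K0) (N.ρ (r p.1⁻¹) n))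
      - (ab.1 (r (p.1 * p.2)) : N →ₗ[k] K.K0) n + (ab.1 (r p.1) : N →ₗ[k] K.K0) n = 0
    rw [map_mul, map_inv]
    exact h' n
  · funext p
    have := congrFun h2 (r p)
    have h' := fun n => congrArg (fun f : N →ₗ[k] K.K1 => f n) this
    refine LinearMap.ext fun n => ?_
    change K.d ((ab.1 (r p) : N →ₗ[k] K.K0) n)
      = K.K1.ρ (r p) ((ab.2 : N →ₗ[k] K.K1) (N.ρ (r p⁻¹) n)) - (ab.2 : N →ₗ[k] K.K1) n
    rw [map_inv]
    exact h' n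

lemma resHomT2_mem_ZZ2 (N : Rep.{0} k G) (K : Cx k G) {ab : T2 (homCx N K)}
    (h : ab ∈ ZZ2 𝓤 (homCx N K)) :
    resHomT2 r N K ab ∈ ZZ2 (𝓤.comap r) (homCx (Rep.res r N) (K.res r)) := by
  obtain ⟨h1, h2, h3, h4⟩ := (mem_ZZ2_iff 𝓤 _ ab).1 h
  refine (mem_ZZ2_iff _ _ _).2 ⟨?_, ?_, IsLC₂.comp_hom 𝓤 r h3, IsLC₁.comp_hom 𝓤 r h4⟩
  · funext p
    have := congrFun h1 (r p.1, r p.2.1, r p.2.2)
    simp only [δ2_apply, Pi.zero_apply] at this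
    have h' := fun n => congrArg (fun f : N →ₗ[k] K.K0 => f n) this
    refine LinearMap.ext fun n => ?_
    change K.K0.ρ (r p.1) ((ab.1 (r p.2.1, r p.2.2) : N →ₗ[k] K.K0) (N.ρ (r p.1⁻¹) n))
      - (ab.1 (r (p.1 * p.2.1), r p.2.2) : N →ₗ[k] K.K0) n
      + (ab.1 (r p.1, r (p.2.1 * p.2.2)) : N →ₗ[k] K.K0) n
      - (ab.1 (r p.1, r p.2.1) : N →ₗ[k] K.K0) n = 0
    rw [map_mul, map_mul, map_inv]
    exact h' n
  · funext p
    have := congrFun h2 (r p.1, r p.2)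
    simp only [δ1_apply, Cx.dco_apply] at this
    have h' := fun n => congrArg (fun f : N →ₗ[k] K.K1 => f n) this
    refine LinearMap.ext fun n => ?_
    change K.d ((ab.1 (r p.1, r p.2) : N →ₗ[k] K.K0) n)
      = K.K1.ρ (r p.1) ((ab.2 (r p.2) : N →ₗ[k] K.K1) (N.ρ (r p.1⁻¹) n))
        - (ab.2 (r (p.1 * p.2)) : N →ₗ[k] K.K1) n + (ab.2 (r p.1) : N →ₗ[k] K.K1) n
    rw [map_mul, map_inv]
    exact h' n

end Restriction

/-! ### Permutation modules -/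

section Perm

variable (k) in
/-- The permutation representation of `G` on functions `G/U → k`:
`(g • f)(x) = f(g⁻¹ x)`.  For `U` of finite index this is `k[G/U]`. -/
def permRepr (U : Subgroup G) : Representation k G ((G ⧸ U) → k) where
  toFun g := LinearMap.funLeft k k (fun x : G ⧸ U => g⁻¹ • x)
  map_one' := by
    refine LinearMap.ext fun f => funext fun x => ?_
    simp [LinearMap.funLeft_apply]
  map_mul' g h := by
    refine LinearMap.ext fun f => funext fun x => ?_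
    simp [LinearMap.funLeft_apply, mul_smul]

variable (k) in
/-- The permutation module `k[G/U]` (as functions on `G/U`). -/
abbrev permRep (U : Subgroup G) : Rep.{0} k G := Rep.of (permRepr k U)

lemma permRep_ρ_apply (U : Subgroup G) (g : G) (f : (G ⧸ U) → k) (x : G ⧸ U) :
    ((permRep k U).ρ g f : (G ⧸ U) → k) x = f (g⁻¹ • x) := rfl

variable (𝓤 : Levels G)

lemma permRep_smooth {U : Subgroup G} (hU : 𝓤.IsOpen U) : IsSmooth 𝓤 (permRep k U) := by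
  obtain ⟨V, hV, hVU⟩ := hU
  have hVn := 𝓤.normal V hV
  intro a
  refine ⟨V, hV, fun g hg => ?_⟩
  have hfix : ∀ x : G ⧸ U, g⁻¹ • x = x := by
    intro x
    induction x using QuotientGroup.induction_on with
    | H x =>
      show ((g⁻¹ * x : G) : G ⧸ U) = (x : G ⧸ U)
      rw [QuotientGroup.eq]
      have : x⁻¹ * g * x ∈ V := by
        have := hVn.conj_mem g hg x⁻¹
        simpa using this
      have h2 : (g⁻¹ * x)⁻¹ * x = x⁻¹ * g * x := by group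
      rw [h2]
      exact hVU this
  funext x
  show (a : (G ⧸ U) → k) (g⁻¹ • x) = (a : (G ⧸ U) → k) x
  rw [hfix]

lemma permRep_finite {U : Subgroup G} (hU : 𝓤.IsOpen U) : Module.Finite k (permRep k U) := by
  obtain ⟨V, hV, hVU⟩ := hU
  have := 𝓤.finiteIndex V hV
  have hfi : U.FiniteIndex := Subgroup.finiteIndex_of_le hVU
  have : Finite (G ⧸ U) := Subgroup.finite_quotient_of_finiteIndex
  show Module.Finite k ((G ⧸ U) → k)
  infer_instance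

end Perm

/-! ### The duality properties -/

section Properties

variable (𝓤 : Levels G) (K : Cx k G) (N : Rep.{0} k G)

/-- `z ∪ n` for a smooth 2-cocycle `z` of `Hom(N, K)` and an invariant `n`. -/
def cupZ2 (z : ↥(ZZ2 𝓤 (homCx N K))) (n : N) (hn : ∀ g : G, N.ρ g n = n) : ↥(ZZ2 𝓤 K) :=
  ⟨cup2 N K z.1 n, cup2_mem_ZZ2 𝓤 N K z.2 hn⟩

/-- `z ∪ y` for a smooth 1-cocycle `z` of `Hom(N, K)` and a smooth 1-cocycle `y` of `N`. -/
def cupZ1 (hN : IsSmooth 𝓤 N) (hfin : Module.Finite k N) (z : ↥(ZZ1 𝓤 (homCx N K)))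
    (y : ↥(Z1 𝓤 N)) : ↥(ZZ2 𝓤 K) :=
  ⟨cup1 N K z.1 y.1, cup1_mem_ZZ2 𝓤 N K hN z.2 y.2⟩

variable (inv : HH2 𝓤 K →ₗ[k] k)

/-- `α²_N : HH²(Hom(N, K)) → (N^G)^*` is injective. -/
def A2Inj : Prop :=
  ∀ z : ↥(ZZ2 𝓤 (homCx N K)),
    (∀ (n : N) (hn : ∀ g : G, N.ρ g n = n), inv (HH2π 𝓤 K (cupZ2 𝓤 K N z n hn)) = 0) →
      (z : T2 (homCx N K)) ∈ BB2 𝓤 (homCx N K)

/-- `α¹_N : HH¹(Hom(N, K)) → H¹(N)^*` is surjective. -/
def A1Surj (hN : IsSmooth 𝓤 N) (hfin : Module.Finite k N) : Prop :=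
  ∀ φ : H1sm 𝓤 N →ₗ[k] k, ∃ z : ↥(ZZ1 𝓤 (homCx N K)),
    ∀ y : ↥(Z1 𝓤 N), inv (HH2π 𝓤 K (cupZ1 𝓤 K N hN hfin z y)) = φ (H1smπ 𝓤 N y)

/-- `α¹_N : HH¹(Hom(N, K)) → H¹(N)^*` is injective. -/
def A1Inj (hN : IsSmooth 𝓤 N) (hfin : Module.Finite k N) : Prop :=
  ∀ z : ↥(ZZ1 𝓤 (homCx N K)),
    (∀ y : ↥(Z1 𝓤 N), inv (HH2π 𝓤 K (cupZ1 𝓤 K N hN hfin z y)) = 0) →
      (z : T1 (homCx N K)) ∈ BB1 (homCx N K)

end Properties

end Fermat.Agent.F4
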