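import Fermat.Agent.MUL.Orig.F4.Hyper
import Fermat.Agent.MUL.E.S12.Dual

/-!
# F4 / Pairing : the complex `Hom(N, K)` and the evaluation pairings (definitions)

For a `k[G]`-module `N` and a 2-term complex `K`:
* `homCx N K` is the complex `Hom_k(N, K⁰) → Hom_k(N, K¹)` (conjugation action);
* `cup2 (a, b) n = (a(·)(n), b(·)(n))` pairs `ZZ²(Hom(N, K))` with `N^G`;
* `cup1 (a, b) y = ((g, h) ↦ a(g)(g y(h)), g ↦ b(y(g)))` pairs `ZZ¹(Hom(N, K))` with `Z¹(N)`.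
Both land in `ZZ²(K)`.  Given `inv : HH²(K) → k` this defines
`α² : HH²(Hom(N,K)) → (N^G)^*` and `α¹ : HH¹(Hom(N,K)) → H¹(N)^*`; we only state the properties
`A2Inj`, `A1Surj`, `A1Inj` on cocycles (no quotient maps needed).
-/

set_option autoImplicit false

open CategoryTheory groupCohomology

namespace Fermat.Agent.F4

variable {k G : Type} [CommRing k] [Group G]

/-- The `G`-module `Hom_k(N, A)` with the conjugation action `g • f = g ∘ f ∘ g⁻¹`. -/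
abbrev homRep (N A : Rep.{0} k G) : Rep.{0} k G := Rep.of (Representation.linHom N.ρ A.ρ)

lemma homRep_ρ_apply (N A : Rep.{0} k G) (g : G) (f : N →ₗ[k] A) (n : N) :
    ((homRep N A).ρ g f : N →ₗ[k] A) n = A.ρ g (f (N.ρ g⁻¹ n)) := rfl

/-- The complex `Hom_k(N, K)`. -/
abbrev homCx (N : Rep.{0} k G) (K : Cx k G) : Cx k G where
  K0 := homRep N K.K0
  K1 := homRep N K.K1
  d := LinearMap.llcomp k N K.K0 K.K1 K.d
  comm g f := by
    refine LinearMap.ext fun n => ?_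
    show K.d (K.K0.ρ g (f (N.ρ g⁻¹ n))) = K.K1.ρ g (K.d (f (N.ρ g⁻¹ n)))
    exact K.comm g _

@[simp] lemma homCx_d_apply (N : Rep.{0} k G) (K : Cx k G) (f : N →ₗ[k] K.K0) (n : N) :
    ((homCx N K).d f : N →ₗ[k] K.K1) n = K.d (f n) := rfl

/-- Contravariant functoriality of `homCx` in `N`. -/
def homCxMap {N N' : Rep.{0} k G} (φ : N →ₗ[k] N')
    (hφ : ∀ (g : G) (n : N), φ (N.ρ g n) = N'.ρ g (φ n)) (K : Cx k G) :
    CxHom (homCx N' K) (homCx N K) where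
  f0 := LinearMap.lcomp k K.K0 φ
  f1 := LinearMap.lcomp k K.K1 φ
  comm0 g f := by
    refine LinearMap.ext fun n => ?_
    show K.K0.ρ g ((f : N' →ₗ[k] K.K0) (N'.ρ g⁻¹ (φ n)))
      = K.K0.ρ g ((f : N' →ₗ[k] K.K0) (φ (N.ρ g⁻¹ n)))
    rw [hφ]
  comm1 g f := by
    refine LinearMap.ext fun n => ?_
    show K.K1.ρ g ((f : N' →ₗ[k] K.K1) (N'.ρ g⁻¹ (φ n)))
      = K.K1.ρ g ((f : N' →ₗ[k] K.K1) (φ (N.ρ g⁻¹ n)))
    rw [hφ]
  commd f := rfl

/-- Covariant functoriality of `homCx` in `K`. -/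
def homCxPost (N : Rep.{0} k G) {K L : Cx k G} (f : CxHom K L) :
    CxHom (homCx N K) (homCx N L) where
  f0 := LinearMap.llcomp k N K.K0 L.K0 f.f0
  f1 := LinearMap.llcomp k N K.K1 L.K1 f.f1
  comm0 g u := by
    refine LinearMap.ext fun n => ?_
    show f.f0 (K.K0.ρ g ((u : N →ₗ[k] K.K0) (N.ρ g⁻¹ n)))
      = L.K0.ρ g (f.f0 ((u : N →ₗ[k] K.K0) (N.ρ g⁻¹ n)))
    exact f.comm0 g _
  comm1 g u := by
    refine LinearMap.ext fun n => ?_
    show f.f1 (K.K1.ρ g ((u : N →ₗ[k] K.K1) (N.ρ g⁻¹ n)))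
      = L.K1.ρ g (f.f1 ((u : N →ₗ[k] K.K1) (N.ρ g⁻¹ n)))
    exact f.comm1 g _
  commd u := by
    refine LinearMap.ext fun n => ?_
    show f.f1 (K.d ((u : N →ₗ[k] K.K0) n)) = L.d (f.f0 ((u : N →ₗ[k] K.K0) n))
    exact f.commd _

/-! ### The pairings on cochains -/

/-- `cup2 (a, b) n = (a(·)(n), b(·)(n))`. -/
def cup2 (N : Rep.{0} k G) (K : Cx k G) (ab : T2 (homCx N K)) (n : N) : T2 K :=
  (fun p => (ab.1 p : N →ₗ[k] K.K0) n, fun g => (ab.2 g : N →ₗ[k] K.K1) n)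

/-- `cup1 (a, b) y = ((g, h) ↦ a(g)(g y(h)), g ↦ b(y(g)))`. -/
def cup1 (N : Rep.{0} k G) (K : Cx k G) (ab : T1 (homCx N K)) (y : G → N) : T2 K :=
  (fun p => (ab.1 p.1 : N →ₗ[k] K.K0) (N.ρ p.1 (y p.2)), fun g => (ab.2 : N →ₗ[k] K.K1) (y g))

section

variable (𝓤 : Levels G) (N : Rep.{0} k G) (K : Cx k G)

lemma cup2_mem_ZZ2 {ab : T2 (homCx N K)} (hab : ab ∈ ZZ2 𝓤 (homCx N K)) {n : N}
    (hn : ∀ g : G, N.ρ g n = n) : cup2 N K ab n ∈ ZZ2 𝓤 K := by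
  obtain ⟨h1, h2, h3, h4⟩ := (mem_ZZ2_iff 𝓤 _ ab).1 hab
  have hn' : ∀ g : G, N.ρ g⁻¹ n = n := fun g => hn g⁻¹
  refine (mem_ZZ2_iff 𝓤 K _).2 ⟨?_, ?_, ?_, ?_⟩
  · funext p
    have := congrArg (fun f : N →ₗ[k] K.K0 => f n) (congrFun h1 p)
    simpa [cup2, homRep_ρ_apply, hn'] using this
  · funext p
    have := congrArg (fun f : N →ₗ[k] K.K1 => f n) (congrFun h2 p)
    simpa [cup2, homRep_ρ_apply, hn'] using this
  · exact h3.comp (fun f : N →ₗ[k] K.K0 => f n)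
  · exact h4.comp (fun f : N →ₗ[k] K.K1 => f n)

/-- A finitely generated smooth module is fixed pointwise by some level. -/
lemma exists_level_fixing (hN : IsSmooth 𝓤 N) [Module.Finite k N] :
    ∃ V ∈ 𝓤.sets, ∀ g ∈ V, ∀ n : N, N.ρ g n = n := by
  obtain ⟨s, hs⟩ := (Module.finite_def (R := k) (M := N)).1 inferInstance
  classical
  have key : ∀ t : Finset N, ∃ V ∈ 𝓤.sets, ∀ g ∈ V, ∀ n ∈ t, N.ρ g n = n := by
    intro t
    induction t using Finset.induction_on with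
    | empty =>
      obtain ⟨V, hV⟩ := 𝓤.nonempty
      exact ⟨V, hV, fun _ _ _ h => absurd h (Finset.notMem_empty _)⟩
    | insert a t _ ih =>
      obtain ⟨V, hV, hVt⟩ := ih
      obtain ⟨U, hU, hUa⟩ := hN a
      obtain ⟨W, hW, hWle⟩ := 𝓤.directed U hU V hV
      refine ⟨W, hW, fun g hg n hn => ?_⟩
      rcases Finset.mem_insert.1 hn with rfl | hn
      · exact hUa g (hWle hg).1
      · exact hVt g (hWle hg).2 n hn
  obtain ⟨V, hV, hVs⟩ := key s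
  refine ⟨V, hV, fun g hg n => ?_⟩
  have hn : n ∈ Submodule.span k (s : Set N) := by rw [hs]; trivial
  induction hn using Submodule.span_induction with
  | mem x hx => exact hVs g hg x hx
  | zero => simp
  | add x y _ _ hx hy => rw [map_add, hx, hy]
  | smul c x _ hx => rw [map_smul, hx]

lemma cup1_mem_ZZ2 (hN : IsSmooth 𝓤 N) [Module.Finite k N] {ab : T1 (homCx N K)}
    (hab : ab ∈ ZZ1 𝓤 (homCx N K)) {y : G → N} (hy : y ∈ Z1 𝓤 N) : cup1 N K ab y ∈ ZZ2 𝓤 K := by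
  obtain ⟨h1, h2, h3⟩ := (mem_ZZ1_iff 𝓤 _ ab).1 hab
  have hyc := (mem_cocycles₁_iff y).1 hy.1
  obtain ⟨Uy, hUy, hyU⟩ := hy.2
  obtain ⟨Ua, hUa, haU⟩ := h3
  obtain ⟨V, hV, hVN⟩ := exists_level_fixing 𝓤 N hN
  -- the cocycle relation of `a`, evaluated
  have ha : ∀ (g h : G) (n : N), (ab.1 (g * h) : N →ₗ[k] K.K0) n
      = K.K0.ρ g ((ab.1 h : N →ₗ[k] K.K0) (N.ρ g⁻¹ n)) + (ab.1 g : N →ₗ[k] K.K0) n := by
    intro g h n
    have := congrArg (fun f : N →ₗ[k] K.K0 => f n) (congrFun h1 (g, h))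
    simp only [δ1_apply, Pi.zero_apply, LinearMap.sub_apply, LinearMap.add_apply,
      LinearMap.zero_apply, homRep_ρ_apply] at this
    rw [sub_add_eq_add_sub, sub_eq_zero] at this
    exact this.symm
  have hb : ∀ (g : G) (n : N), K.d ((ab.1 g : N →ₗ[k] K.K0) n)
      = K.K1.ρ g ((ab.2 : N →ₗ[k] K.K1) (N.ρ g⁻¹ n)) - (ab.2 : N →ₗ[k] K.K1) n := by
    intro g n
    have := congrArg (fun f : N →ₗ[k] K.K1 => f n) (congrFun h2 g)
    exact this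
  refine (mem_ZZ2_iff 𝓤 K _).2 ⟨?_, ?_, ?_, ?_⟩
  · funext p
    obtain ⟨g, h, j⟩ := p
    simp only [δ2_apply, cup1, Pi.zero_apply]
    rw [ha g h, hyc h j, map_add, map_add, map_mul, Module.End.mul_apply,
      ← Module.End.mul_apply (N.ρ g⁻¹), ← map_mul, inv_mul_cancel, map_one, Module.End.one_apply]
    abel
  · funext p
    obtain ⟨g, h⟩ := p
    simp only [Cx.dco_apply, δ1_apply, cup1]
    rw [hb g, ← Module.End.mul_apply (N.ρ g⁻¹), ← map_mul, inv_mul_cancel, map_one,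
      Module.End.one_apply, hyc g h, map_add]
    abel
  · obtain ⟨W₁, hW₁, hW₁le⟩ := 𝓤.directed Ua hUa Uy hUy
    obtain ⟨W, hW, hWle⟩ := 𝓤.directed W₁ hW₁ V hV
    refine ⟨W, hW, fun g g' s s' hs hs' => ?_⟩
    simp only [cup1]
    rw [haU g s (hW₁le (hWle hs).1).1, hyU g' s' (hW₁le (hWle hs').1).2, map_mul,
      Module.End.mul_apply, hVN s (hWle hs).2]
  · exact ⟨Uy, hUy, fun g s hs => by simp only [cup1]; rw [hyU g s hs]⟩

end

end Fermat.Agent.F4
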